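/-
S37lib / Tower / LocalDict  (helper6)

Local dictionary for a finite separable extension `F' / F` of fields over `K` and a place `v`
of `F / K`: with `R := v.toValuationSubring` (a DVR) and `S := integralClosure R F'`
(a Dedekind domain, finite over `R`, with fraction field `F'`), the places of `F'` above `v`
are exactly the places `Place.ofHeightOneSpectrum P`, `P` a nonzero prime of `S`.
-/
import Mathlib
import Fermat.Agent.ProgramR.FunctionField.PlaceDedekind
import Fermat.Agent.S18lib.Mod23.Tower
import Fermat.Prelude.Def_AlgebraicCurve_DivisorPushPull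

set_option autoImplicit false
set_option linter.unusedSectionVars false
set_option linter.style.haveILetI false

noncomputable section

namespace Fermat.Agent.S37lib.Tower

open AlgebraicCurve IsDedekindDomain Module Fermat.Agent.ProgramR

variable {K F F' : Type*} [Field K] [Field F] [Field F'] [Algebra K F] [Algebra K F']
  [Algebra F F'] [IsScalarTower K F F'] [FiniteDimensional F F'] [Algebra.IsSeparable F F']

variable (v : Place K F)

/-- the integral closure of `O_v` in `F'`. -/
abbrev Sv : Subalgebra v.toValuationSubring F' := integralClosure v.toValuationSubring F'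

instance isDedekindDomain_Sv : IsDedekindDomain (Sv (F' := F') v) :=
  IsIntegralClosure.isDedekindDomain v.toValuationSubring F F' (Sv (F' := F') v)

instance isFractionRing_Sv : IsFractionRing (Sv (F' := F') v) F' :=
  IsIntegralClosure.isFractionRing_of_finite_extension v.toValuationSubring F F' (Sv (F' := F') v)

instance finite_Sv : Module.Finite v.toValuationSubring (Sv (F' := F') v) :=
  IsIntegralClosure.finite v.toValuationSubring F F' (Sv (F' := F') v)

/-- the `K`-algebra structure of `S_v`. -/
instance algebra_Sv : Algebra K (Sv (F' := F') v) :=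
  ((algebraMap v.toValuationSubring (Sv (F' := F') v)).comp
    (algebraMap K v.toValuationSubring)).toAlgebra

instance isScalarTower_K_Ov_Sv : IsScalarTower K v.toValuationSubring (Sv (F' := F') v) :=
  IsScalarTower.of_algebraMap_eq fun _ => rfl

theorem coe_algebraMap_Ov_Sv (a : v.toValuationSubring) :
    ((algebraMap v.toValuationSubring (Sv (F' := F') v) a : Sv (F' := F') v) : F') =
      algebraMap F F' (a : F) := rfl

instance isScalarTower_K_Sv_F' : IsScalarTower K (Sv (F' := F') v) F' :=
  IsScalarTower.of_algebraMap_eq fun a => by
    show algebraMap K F' a = algebraMap F F' ((algebraMap K v.toValuationSubring a : _) : F)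
    rw [v.coe_algebraMap, ← IsScalarTower.algebraMap_apply]

/-! ### places above `v` ↔ primes of `S_v` -/

/-- the place of `F'` attached to a prime of `S_v`. -/
def placeOf (P : HeightOneSpectrum (Sv (F' := F') v)) : Place K F' :=
  Place.ofHeightOneSpectrum (K := K) P

theorem placeOf_injective : Function.Injective (placeOf (F' := F') v) :=
  FF.ofHeightOneSpectrum_injective (K := K) (F := F')

/-- **(D1)** the place attached to a prime of `S_v` lies above `v`. -/
theorem restrict_placeOf (P : HeightOneSpectrum (Sv (F' := F') v)) :
    (placeOf v P).restrict F = v := by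
  symm
  apply Place.ext
  refine ValuationSubring.eq_of_le_of_ne_top _ ?_ ((placeOf v P).restrict F).ne_top'
  intro x hx
  rw [Place.restrict_toValuationSubring, ValuationSubring.mem_comap]
  have h := FF.algebraMap_mem_ofHeightOneSpectrum (K := K) (F := F') P
    (algebraMap v.toValuationSubring (Sv (F' := F') v) ⟨x, hx⟩)
  exact h

/-- **(D2)** a place of `F'` above `v` is finite on `S_v`. -/
theorem algebraMap_Sv_mem_of_restrict_eq {w : Place K F'} (hw : w.restrict F = v)
    (s : Sv (F' := F') v) : algebraMap (Sv (F' := F') v) F' s ∈ w.toValuationSubring := by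
  -- `O_v → O_w`
  have hmem : ∀ a : v.toValuationSubring, algebraMap F F' (a : F) ∈ w.toValuationSubring := by
    intro a
    have : (a : F) ∈ (w.restrict F).toValuationSubring := by rw [hw]; exact a.2
    exact this
  letI : Algebra v.toValuationSubring w.toValuationSubring :=
    ((algebraMap v.toValuationSubring F').codRestrict w.toValuationSubring.toSubring
      (fun a => hmem a)).toAlgebra
  haveI : IsScalarTower v.toValuationSubring w.toValuationSubring F' :=
    IsScalarTower.of_algebraMap_eq fun _ => rfl
  have hs : IsIntegral v.toValuationSubring (algebraMap (Sv (F' := F') v) F' s) := s.2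
  have hs' : IsIntegral w.toValuationSubring (algebraMap (Sv (F' := F') v) F' s) := hs.tower_top
  obtain ⟨y, hy⟩ := IsIntegrallyClosed.isIntegral_iff.mp hs'
  rw [← hy]
  exact y.2

/-- the prime of `S_v` below a place above `v`. -/
def primeOf {w : Place K F'} (hw : w.restrict F = v) : HeightOneSpectrum (Sv (F' := F') v) :=
  FF.centerSpec w (algebraMap_Sv_mem_of_restrict_eq v hw)

theorem placeOf_primeOf {w : Place K F'} (hw : w.restrict F = v) :
    placeOf v (primeOf v hw) = w :=
  FF.ofHeightOneSpectrum_centerSpec w (algebraMap_Sv_mem_of_restrict_eq v hw)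

theorem primeOf_placeOf (P : HeightOneSpectrum (Sv (F' := F') v)) :
    primeOf v (restrict_placeOf v P) = P :=
  placeOf_injective v (placeOf_primeOf v _)

/-- **(D3)** the fibre above `v` is the image of the primes of `S_v`. -/
theorem mem_fiber_iff [HasPrincipalDivisors K F'] (w : Place K F') :
    w ∈ v.fiber F' ↔ ∃ P : HeightOneSpectrum (Sv (F' := F') v), placeOf v P = w := by
  rw [Place.mem_fiber]
  exact ⟨fun hw => ⟨primeOf v hw, placeOf_primeOf v hw⟩, fun ⟨P, hP⟩ => hP ▸ restrict_placeOf v P⟩

end Fermat.Agent.S37lib.Tower
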