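/-
S37lib / Tower / SumRam  (helper6)

**Fundamental identity** `∑_{w ∣ v} e(w|v) f(w|v) = [F' : F]` for a finite separable extension
`F' / F` of fields over `K` all of whose places (of `F'`) have degree one, in the Prelude's
form `SumRamificationInertia K F F'` / `FundamentalIdentity K F F'`.
-/
import Mathlib
import Fermat.Agent.S37lib.Tower.LocalDict
import Fermat.Agent.S18lib.RHCount.Dedekind

set_option autoImplicit false
set_option linter.unusedSectionVars false
set_option linter.style.haveILetI false

noncomputable section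

namespace Fermat.Agent.S37lib.Tower

open AlgebraicCurve IsDedekindDomain Module Fermat.Agent.ProgramR UniqueFactorizationMonoid

variable {K F F' : Type*} [Field K] [Field F] [Field F'] [Algebra K F] [Algebra K F']
  [Algebra F F'] [IsScalarTower K F F'] [FiniteDimensional F F'] [Algebra.IsSeparable F F']

variable (v : Place K F)

instance isTorsionFree_Sv : IsTorsionFree v.toValuationSubring (Sv (F' := F') v) :=
  Fermat.Agent.S18lib.Mod23.isTorsionFree_closure v.toValuationSubring F F'

theorem finrank_Sv : finrank v.toValuationSubring (Sv (F' := F') v) = finrank F F' :=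
  Fermat.Agent.S18lib.Mod23.finrank_closure v.toValuationSubring F F'

/-- the maximal ideal of `O_v`. -/
abbrev pv : Ideal v.toValuationSubring := IsLocalRing.maximalIdeal v.toValuationSubring

theorem pv_ne_bot : pv v ≠ ⊥ :=
  IsDiscreteValuationRing.not_a_field v.toValuationSubring

/-- every nonzero prime of `S_v` lies over the maximal ideal of `O_v`. -/
instance liesOver_pv (P : HeightOneSpectrum (Sv (F' := F') v)) : P.asIdeal.LiesOver (pv v) := by
  constructor
  have hprime : (P.asIdeal.under v.toValuationSubring).IsPrime := inferInstance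
  have hne : P.asIdeal.under v.toValuationSubring ≠ ⊥ := by
    obtain ⟨x, hxP, hx0⟩ := Submodule.exists_mem_ne_zero_of_ne_bot P.ne_bot
    exact Ideal.comap_ne_bot_of_integral_mem hx0 hxP (Algebra.IsIntegral.isIntegral x)
  haveI := hprime.isMaximal hne
  exact (IsLocalRing.eq_maximalIdeal this).symm

theorem algebraMap_Ov_Sv_injective :
    Function.Injective (algebraMap v.toValuationSubring (Sv (F' := F') v)) :=
  FaithfulSMul.algebraMap_injective _ _

theorem map_pv_ne_bot : (pv v).map (algebraMap v.toValuationSubring (Sv (F' := F') v)) ≠ ⊥ :=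
  (Ideal.map_eq_bot_iff_of_injective (algebraMap_Ov_Sv_injective v)).not.mpr (pv_ne_bot v)

/-- the order at `placeOf P` of an element of `O_v`. -/
theorem ord_placeOf_algebraMap (P : HeightOneSpectrum (Sv (F' := F') v))
    {a : v.toValuationSubring} (ha : a ≠ 0) :
    (placeOf v P).ord (algebraMap F F' (a : F)) =
      ((normalizedFactors (Ideal.span {algebraMap v.toValuationSubring (Sv (F' := F') v) a})).count
        P.asIdeal : ℤ) := by
  have ha' : algebraMap v.toValuationSubring (Sv (F' := F') v) a ≠ 0 := by
    rwa [Ne, map_eq_zero_iff _ (algebraMap_Ov_Sv_injective v)]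
  have e : algebraMap F F' (a : F) =
      algebraMap (Sv (F' := F') v) F' (algebraMap v.toValuationSubring (Sv (F' := F') v) a) :=
    (coe_algebraMap_Ov_Sv v a).symm
  rw [e, placeOf]
  exact FF.ord_algebraMap_eq_count (K := K) (F := F') P ha'

/-- **(D4)** the Prelude's ramification index of `placeOf P` over `F` is the ramification index
of `P` over `O_v`. -/
theorem ramificationIndex_placeOf (P : HeightOneSpectrum (Sv (F' := F') v)) :
    (placeOf v P).ramificationIndex F = P.asIdeal.ramificationIdx v.toValuationSubring := by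
  obtain ⟨π, hπ⟩ := IsDiscreteValuationRing.exists_irreducible v.toValuationSubring
  have h1 := (placeOf v P).ord_restrict (F := F) (π : F)
  rw [restrict_placeOf, v.ord_coe_irreducible hπ, mul_one,
    ord_placeOf_algebraMap v P hπ.ne_zero] at h1
  have h2 : Ideal.span {algebraMap v.toValuationSubring (Sv (F' := F') v) π} =
      (pv v).map (algebraMap v.toValuationSubring (Sv (F' := F') v)) := by
    rw [pv, hπ.maximalIdeal_eq, Ideal.map_span, Set.image_singleton]
  rw [h2, ← Ideal.IsDedekindDomain.ramificationIdx_eq_normalizedFactors_count (pv v) P.asIdeal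
    (map_pv_ne_bot v)] at h1
  exact_mod_cast h1.symm

/-- `K → S_v ⧸ P` is surjective when the place of `P` has degree one. -/
theorem algebraMap_quotient_surjective (P : HeightOneSpectrum (Sv (F' := F') v))
    (hdeg : (placeOf v P).deg = 1) :
    Function.Surjective (algebraMap K (Sv (F' := F') v ⧸ P.asIdeal)) := by
  have h1 : finrank K (Sv (F' := F') v ⧸ P.asIdeal) = 1 := by
    rw [← FF.deg_ofHeightOneSpectrum (K := K) (F := F') P]
    exact hdeg
  haveI : P.asIdeal.IsMaximal := P.isMaximal
  letI : Field (Sv (F' := F') v ⧸ P.asIdeal) := Ideal.Quotient.field _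
  rw [Algebra.surjective_algebraMap_iff]
  exact (Subalgebra.bot_eq_top_of_finrank_eq_one h1).symm

/-- **(D5)** all inertia degrees over `O_v` are one when the places of `F'` have degree one. -/
theorem inertiaDeg_eq_one (hdeg' : ∀ w : Place K F', w.deg = 1)
    (P : HeightOneSpectrum (Sv (F' := F') v)) :
    P.asIdeal.inertiaDeg v.toValuationSubring = 1 := by
  haveI : P.asIdeal.IsMaximal := P.isMaximal
  refine Fermat.Agent.S18lib.RHCount.inertiaDeg_eq_one_of_surjective v.toValuationSubring
    (p := pv v) P.asIdeal ?_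
  intro y
  obtain ⟨c, hc⟩ := algebraMap_quotient_surjective v P (hdeg' _) y
  refine ⟨algebraMap K v.toValuationSubring c, ?_⟩
  rw [← hc, IsScalarTower.algebraMap_apply v.toValuationSubring (Sv (F' := F') v)
    (Sv (F' := F') v ⧸ P.asIdeal), ← IsScalarTower.algebraMap_apply K v.toValuationSubring
    (Sv (F' := F') v), ← IsScalarTower.algebraMap_apply K (Sv (F' := F') v)
    (Sv (F' := F') v ⧸ P.asIdeal)]

/-- the Prelude's inertia degree is one when all places have degree one. -/
theorem prelude_inertiaDeg_eq_one (hdeg' : ∀ w : Place K F', w.deg = 1) (w : Place K F') :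
    w.inertiaDeg F = 1 := by
  have h := w.deg_restrict_mul_inertiaDeg (F := F)
  rw [hdeg' w] at h
  exact Nat.eq_one_of_mul_eq_one_left h

/-- a prime over `𝔪_v`, as a height one prime of `S_v`. -/
def specOf {P : Ideal (Sv (F' := F') v)} (hP : P ∈ (pv v).primesOver (Sv (F' := F') v)) :
    HeightOneSpectrum (Sv (F' := F') v) :=
  ⟨P, hP.1, by
    haveI := hP.2
    exact Fermat.Agent.S18lib.RHCount.ne_bot_of_liesOver v.toValuationSubring (pv_ne_bot v) P⟩

@[simp] theorem specOf_asIdeal {P : Ideal (Sv (F' := F') v)}
    (hP : P ∈ (pv v).primesOver (Sv (F' := F') v)) : (specOf v hP).asIdeal = P := rfl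

theorem asIdeal_mem_primesOver (P : HeightOneSpectrum (Sv (F' := F') v)) :
    P.asIdeal ∈ (pv v).primesOver (Sv (F' := F') v) :=
  ⟨P.isPrime, liesOver_pv v P⟩

/-- reindexing sums over the fibre of `v` by the primes of `S_v` over `𝔪_v`. -/
theorem sum_fiber_eq_sum_primesOver [HasPrincipalDivisors K F'] {M : Type*} [AddCommMonoid M]
    (g : Place K F' → M) (g' : Ideal (Sv (F' := F') v) → M)
    (hg : ∀ P : HeightOneSpectrum (Sv (F' := F') v), g (placeOf v P) = g' P.asIdeal) :
    ∑ w ∈ v.fiber F', g w =
      ∑ P ∈ IsDedekindDomain.primesOverFinset (pv v) (Sv (F' := F') v), g' P := by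
  classical
  have hmem : ∀ P : Ideal (Sv (F' := F') v),
      P ∈ IsDedekindDomain.primesOverFinset (pv v) (Sv (F' := F') v) ↔
        P ∈ (pv v).primesOver (Sv (F' := F') v) := fun P =>
    IsDedekindDomain.mem_primesOverFinset_iff (pv_ne_bot v) (Sv (F' := F') v)
  refine Finset.sum_bij' (fun w hw => (primeOf v (Place.mem_fiber.mp hw)).asIdeal)
    (fun P hP => placeOf v (specOf v ((hmem P).mp hP))) ?_ ?_ ?_ ?_ ?_
  · intro w hw
    exact (hmem _).mpr (asIdeal_mem_primesOver v _)
  · intro P hP
    exact Place.mem_fiber.mpr (restrict_placeOf v _)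
  · intro w hw
    have : specOf v ((hmem _).mp ((hmem _).mpr (asIdeal_mem_primesOver v
        (primeOf v (Place.mem_fiber.mp hw))))) = primeOf v (Place.mem_fiber.mp hw) :=
      HeightOneSpectrum.ext rfl
    rw [this, placeOf_primeOf]
  · intro P hP
    have h1 := primeOf_placeOf v (specOf v ((hmem P).mp hP))
    have h2 : primeOf v (Place.mem_fiber.mp (Place.mem_fiber.mpr
        (restrict_placeOf v (specOf v ((hmem P).mp hP))))) =
        primeOf v (restrict_placeOf v (specOf v ((hmem P).mp hP))) := rfl
    rw [h2, h1, specOf_asIdeal]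
  · intro w hw
    rw [← hg, placeOf_primeOf]

/-- **Fundamental identity**, Prelude form with inertia degrees. -/
theorem sumRamificationInertia [HasPrincipalDivisors K F']
    (hdeg' : ∀ w : Place K F', w.deg = 1) : SumRamificationInertia K F F' := by
  refine ⟨fun v => ?_⟩
  have hf : ∀ P : Ideal (Sv (F' := F') v), P.IsPrime → P ≠ ⊥ →
      P.inertiaDeg v.toValuationSubring = 1 := fun P hP hP0 =>
    inertiaDeg_eq_one v hdeg' ⟨P, hP, hP0⟩
  have hsum := Fermat.Agent.S18lib.RHCount.sum_ramificationIdx_eq_finrank v.toValuationSubring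
    hf (pv_ne_bot v)
  rw [finrank_Sv] at hsum
  have key := sum_fiber_eq_sum_primesOver (F' := F') v (M := ℕ)
    (fun w : Place K F' => w.ramificationIndex F)
    (fun P : Ideal (Sv (F' := F') v) => P.ramificationIdx v.toValuationSubring)
    (ramificationIndex_placeOf v)
  have h1 : ∑ w ∈ v.fiber F', (w.ramificationIndex F : ℤ) * (w.inertiaDeg F : ℤ) =
      ((∑ w ∈ v.fiber F', w.ramificationIndex F : ℕ) : ℤ) := by
    rw [Nat.cast_sum]
    refine Finset.sum_congr rfl fun w _ => ?_
    rw [prelude_inertiaDeg_eq_one hdeg' w, Nat.cast_one, mul_one]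
  rw [h1, key, hsum]

/-- **Fundamental identity**, Prelude form with degrees. -/
theorem fundamentalIdentity [HasPrincipalDivisors K F']
    (hdeg' : ∀ w : Place K F', w.deg = 1) : FundamentalIdentity K F F' :=
  haveI := sumRamificationInertia (K := K) (F := F) (F' := F') hdeg'
  inferInstance

end Fermat.Agent.S37lib.Tower
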