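/-
S37lib / Tower / NormFormula  (helper6)

**Norm formula** `ord_v (N_{F'/F} f) = ∑_{w ∣ v} f(w|v) · ord_w f` for a finite separable
extension `F' / F` of characteristic-zero fields over `K` whose places (of `F'`) all have degree
one, in the Prelude's form `Divisor.PushforwardNormFormula K F F'`.
-/
import Mathlib
import Fermat.Agent.S37lib.Tower.SumRam

set_option autoImplicit false
set_option linter.unusedSectionVars false
set_option linter.style.haveILetI false

noncomputable section

namespace Fermat.Agent.S37lib.Tower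

open AlgebraicCurve IsDedekindDomain Module Fermat.Agent.ProgramR UniqueFactorizationMonoid
  WithZero

variable {K F F' : Type*} [Field K] [Field F] [Field F'] [Algebra K F] [Algebra K F']
  [Algebra F F'] [IsScalarTower K F F'] [FiniteDimensional F F'] [Algebra.IsSeparable F F']

variable (v : Place K F)

/-- the order of an element of `O_v` is the exponent of `𝔪_v` in its principal ideal. -/
theorem ord_coe_eq_count {a : v.toValuationSubring} (ha : a ≠ 0) :
    v.ord (a : F) = ((normalizedFactors (Ideal.span {a})).count (pv v) : ℤ) := by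
  have hsr : (Ideal.span {a} : Ideal v.toValuationSubring) ≠ 0 :=
    Submodule.span_singleton_eq_bot.mp.mt ha
  rw [Place.ord, v.adicValuation_coe, HeightOneSpectrum.intValuation_if_neg _ ha, log_exp, neg_neg,
    Ideal.count_associates_factors_eq hsr v.heightOneSpectrum.isPrime v.heightOneSpectrum.ne_bot]
  rfl

theorem ord_coe_of_span_eq_pow {a : v.toValuationSubring} {m : ℕ}
    (h : Ideal.span {a} = pv v ^ m) : v.ord (a : F) = m := by
  have ha : a ≠ 0 := by
    rintro rfl
    rw [Ideal.span_singleton_eq_bot.mpr rfl] at h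
    exact pow_ne_zero m (pv_ne_bot v) h.symm
  have hirr : Irreducible (pv v) :=
    (Ideal.prime_of_isPrime (pv_ne_bot v) inferInstance).irreducible
  rw [ord_coe_eq_count v ha, h, normalizedFactors_pow, normalizedFactors_irreducible hirr,
    normalize_eq, Multiset.count_nsmul, Multiset.count_singleton_self, mul_one]

section CharZero

variable [CharZero F]

/-- the relative norm of a nonzero prime of `S_v` is `𝔪_v` (residue degree one). -/
theorem relNorm_prime (hdeg' : ∀ w : Place K F', w.deg = 1)
    (P : HeightOneSpectrum (Sv (F' := F') v)) :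
    Ideal.relNorm v.toValuationSubring P.asIdeal = pv v := by
  haveI : P.asIdeal.IsMaximal := P.isMaximal
  rw [Ideal.relNorm_eq_pow_of_isMaximal P.asIdeal (pv v), inertiaDeg_eq_one v hdeg' P, pow_one]

/-- every normalized factor of a nonzero ideal of `S_v` is a height one prime. -/
theorem specOfFactor {I : Ideal (Sv (F' := F') v)} {P : Ideal (Sv (F' := F') v)}
    (hP : P ∈ normalizedFactors I) : ∃ Q : HeightOneSpectrum (Sv (F' := F') v), Q.asIdeal = P := by
  have hprime := prime_of_normalized_factor P hP
  exact ⟨⟨P, Ideal.isPrime_of_prime hprime, hprime.ne_zero⟩, rfl⟩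

/-- `(N s) = 𝔪_v ^ (number of prime factors of (s))`. -/
theorem span_intNorm (hdeg' : ∀ w : Place K F', w.deg = 1) {s : Sv (F' := F') v} (hs : s ≠ 0) :
    Ideal.span {Algebra.intNorm v.toValuationSubring (Sv (F' := F') v) s} =
      pv v ^ Multiset.card (normalizedFactors (Ideal.span {s})) := by
  have hne : (Ideal.span {s} : Ideal (Sv (F' := F') v)) ≠ 0 :=
    Submodule.span_singleton_eq_bot.mp.mt hs
  rw [← Ideal.relNorm_singleton]
  conv_lhs => rw [← Ideal.prod_normalizedFactors_eq_self hne]
  rw [map_multiset_prod]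
  have hrep : (normalizedFactors (Ideal.span {s})).map (Ideal.relNorm v.toValuationSubring) =
      Multiset.replicate (Multiset.card (normalizedFactors (Ideal.span {s}))) (pv v) := by
    rw [Multiset.eq_replicate]
    refine ⟨Multiset.card_map _ _, fun b hb => ?_⟩
    obtain ⟨P, hP, rfl⟩ := Multiset.mem_map.mp hb
    obtain ⟨Q, rfl⟩ := specOfFactor v hP
    exact relNorm_prime v hdeg' Q
  rw [hrep, Multiset.prod_replicate]

/-- the norm formula for elements of `S_v`. -/
theorem ord_norm_algebraMap [HasPrincipalDivisors K F'] (hdeg' : ∀ w : Place K F', w.deg = 1)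
    {s : Sv (F' := F') v} (hs : s ≠ 0) :
    v.ord (Algebra.norm F (algebraMap (Sv (F' := F') v) F' s)) =
      ∑ w ∈ v.fiber F', w.ord (algebraMap (Sv (F' := F') v) F' s) := by
  classical
  -- left hand side
  have hL : v.ord (Algebra.norm F (algebraMap (Sv (F' := F') v) F' s)) =
      Multiset.card (normalizedFactors (Ideal.span {s})) := by
    rw [← Algebra.algebraMap_intNorm (A := v.toValuationSubring) (B := Sv (F' := F') v)]
    exact ord_coe_of_span_eq_pow v (span_intNorm v hdeg' hs)
  -- right hand side
  have hR := sum_fiber_eq_sum_primesOver (F' := F') v (M := ℤ)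
    (fun w : Place K F' => w.ord (algebraMap (Sv (F' := F') v) F' s))
    (fun P : Ideal (Sv (F' := F') v) => ((normalizedFactors (Ideal.span {s})).count P : ℤ))
    (fun P => FF.ord_algebraMap_eq_count (K := K) (F := F') P hs)
  rw [hL, hR, ← Nat.cast_sum]
  congr 1
  symm
  refine Fermat.Agent.S18lib.RHCount.sum_count_eq_card fun P hP => ?_
  rw [Multiset.mem_toFinset] at hP
  obtain ⟨Q, rfl⟩ := specOfFactor v hP
  exact (IsDedekindDomain.mem_primesOverFinset_iff (pv_ne_bot v) (Sv (F' := F') v)).mpr
    (asIdeal_mem_primesOver v Q)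

theorem ord_div (w : Place K F') {a b : F'} (ha : a ≠ 0) (hb : b ≠ 0) :
    w.ord (a / b) = w.ord a - w.ord b := by
  rw [div_eq_mul_inv, w.ord_mul ha (inv_ne_zero hb), w.ord_inv, sub_eq_add_neg]

/-- the norm formula for all nonzero elements of `F'`. -/
theorem ord_norm [HasPrincipalDivisors K F'] (hdeg' : ∀ w : Place K F', w.deg = 1)
    {f : F'} (hf : f ≠ 0) :
    v.ord (Algebra.norm F f) = ∑ w ∈ v.fiber F', w.ord f := by
  obtain ⟨s, t, ht, rfl⟩ := IsFractionRing.div_surjective (A := Sv (F' := F') v) f
  have ht0 : t ≠ 0 := nonZeroDivisors.ne_zero ht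
  have hs0 : s ≠ 0 := by
    rintro rfl
    rw [map_zero, zero_div] at hf
    exact hf rfl
  have hinj : Function.Injective (algebraMap (Sv (F' := F') v) F') :=
    IsFractionRing.injective _ _
  have hs' : algebraMap (Sv (F' := F') v) F' s ≠ 0 := by rwa [Ne, map_eq_zero_iff _ hinj]
  have ht' : algebraMap (Sv (F' := F') v) F' t ≠ 0 := by rwa [Ne, map_eq_zero_iff _ hinj]
  have hNs : Algebra.norm F (algebraMap (Sv (F' := F') v) F' s) ≠ 0 :=
    Algebra.norm_ne_zero_iff.mpr hs'
  have hNt : Algebra.norm F (algebraMap (Sv (F' := F') v) F' t) ≠ 0 :=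
    Algebra.norm_ne_zero_iff.mpr ht'
  have hN : Algebra.norm F (algebraMap (Sv (F' := F') v) F' s / algebraMap (Sv (F' := F') v) F' t) =
      Algebra.norm F (algebraMap (Sv (F' := F') v) F' s) /
        Algebra.norm F (algebraMap (Sv (F' := F') v) F' t) := by
    rw [eq_div_iff hNt, ← map_mul, div_mul_cancel₀ _ ht']
  rw [hN, div_eq_mul_inv, v.ord_mul hNs (inv_ne_zero hNt), v.ord_inv,
    ord_norm_algebraMap v hdeg' hs0, ord_norm_algebraMap v hdeg' ht0, ← sub_eq_add_neg,
    ← Finset.sum_sub_distrib]
  refine Finset.sum_congr rfl fun w _ => ?_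
  exact (ord_div w hs' ht').symm

/-- **Norm formula**, Prelude form. -/
theorem pushforwardNormFormula [HasPrincipalDivisors K F']
    (hdeg' : ∀ w : Place K F', w.deg = 1) : Divisor.PushforwardNormFormula K F F' := by
  intro f hf D hD v
  classical
  rw [Divisor.pushforward_apply, ord_norm v hdeg' hf, ← Finset.sum_filter]
  have hsub : D.support.filter (fun w => w.restrict F = v) ⊆ v.fiber F' := by
    intro w hw
    exact Place.mem_fiber.mpr (Finset.mem_filter.mp hw).2
  rw [← Finset.sum_subset hsub]
  · refine Finset.sum_congr rfl fun w _ => ?_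
    rw [prelude_inertiaDeg_eq_one hdeg' w, Nat.cast_one, mul_one, hD w]
  · intro w hw hw'
    have hnot : w ∉ D.support := fun h =>
      hw' (Finset.mem_filter.mpr ⟨h, Place.mem_fiber.mp hw⟩)
    rw [← hD w]
    exact Finsupp.notMem_support_iff.mp hnot

end CharZero

end Fermat.Agent.S37lib.Tower
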